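import Fermat.Statements.S22
import Fermat.Agent.S22.Assembly
import Fermat.Agent.S22.HeckeU
import Fermat.Agent.S22.LatticeFG
import Fermat.Agent.S22.GammaFG

set_option autoImplicit false
open CuspForm

namespace Fermat.Agent.S22

open Polynomial

/-- The period lattice is finitely generated. -/
theorem periodLattice_fg (N : ℕ) [NeZero N] (m : ℕ) : (periodLattice N m).FG := by
  haveI : Group.FG (CongruenceSubgroup.Gamma0 N) := fg_Gamma0 N
  exact cocycle_lattice_fg m (fun γ : CongruenceSubgroup.Gamma0 N => periodPolyLin (m := m) γ)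
    (fun γ => actSL m (γ : Matrix.SpecialLinearGroup (Fin 2) ℤ))
    (fun γ φ hφ => comp_polyAct_mem_intFunctionals m _ _ _ _ hφ)
    periodPolyLin_one periodPolyLin_mul

theorem moduleFinite_heckeAlgebra_add_two (N : ℕ) [NeZero N] (m : ℕ) (S : Set ℕ) :
    Module.Finite ℤ (CuspForm.heckeAlgebra N ((m : ℤ) + 2) S) :=
  moduleFinite_heckeAlgebra_of_inputs S (periodLattice_fg N m)
    (fun hq hqN _ hl => periodLattice_stable_U hq hqN hl)

theorem result (N : ℕ) [NeZero N] (k : ℤ) (S : Set ℕ) :
    Module.Finite ℤ (CuspForm.heckeAlgebra N k S) := by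
  rcases le_or_gt k 0 with hk | hk
  · exact moduleFinite_heckeAlgebra_of_forall_eq_zero N k S
      (fun f => cuspForm_eq_zero_of_nonpos N hk f)
  · rcases eq_or_lt_of_le (show (1 : ℤ) ≤ k by omega) with h1 | h2
    · subst h1
      exact moduleFinite_heckeAlgebra_of_forall_eq_zero N 1 S
        (fun f => cuspForm_eq_zero_of_odd N odd_one f)
    · obtain ⟨m, rfl⟩ : ∃ m : ℕ, k = (m : ℤ) + 2 := ⟨(k - 2).toNat, by omega⟩
      exact moduleFinite_heckeAlgebra_add_two N m S

end Fermat.Agent.S22
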