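import Fermat.Statements.S20
import Fermat.Agent.S20.GensFinal

set_option autoImplicit false
open CuspForm

namespace Fermat.Agent.S20

theorem result (N : ℕ) [NeZero N] :
    (Module.finrank ℂ (CuspForm (CongruenceSubgroup.Gamma0 N) 2) : ℚ) = ModularCurve.genusFormula N := by
  obtain ⟨𝔊⟩ := nonempty_gens N
  have h1 := 𝔊.finrank_cuspForm_two
  have h2 := 𝔊.twelve_mul_card_weight_ten
  have h3 := card_cosetX N
  rw [h1]
  have h2' : (12 : ℚ) * (Nat.card {j : 𝔊.J // 𝔊.κ j = 10} : ℚ) =
      12 + (ModularCurve.dedekindPsi N : ℚ) - 3 * (ModularCurve.nuTwo N : ℚ)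
        - 4 * (ModularCurve.nuThree N : ℚ) - 6 * (ModularCurve.cuspCount N : ℚ) := by
    rw [← h3]
    exact_mod_cast h2
  unfold ModularCurve.genusFormula
  linarith

end Fermat.Agent.S20
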