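-- Statement S18 (row 17): a point of J₀(N) killed by some m prime to ℓ whose reduction mod ℓ
-- vanishes is zero.  Proof: the KEY LEMMA (kernel of reduction has no prime-to-ℓ torsion) at
-- every level (`Fermat.Agent.GaussInt.keyLemmaAt_all`) wired to the prelude's reduction map
-- (`Fermat.Agent.S18W.s18_of_keyLemmaAt`).
import Fermat.Statements.S18
import Fermat.Agent.S18.Wiring
import Fermat.Agent.Lib.GaussInt.KeyAux

set_option autoImplicit false
open ModularCurve

namespace Fermat.Agent.S18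

theorem result (N : ℕ) [NeZero N] {ℓ : ℕ}
    [Fact ℓ.Prime] (hℓN : ¬ ℓ ∣ N) (A : ValuationSubring (AlgebraicClosure ℚ)) (hA : A.LiesOverPrime ℓ)
    (h : ModularCurve.ReductionInputsModL A N) (m : ℕ) (hm : ¬ ℓ ∣ m) (z : ModularCurve.JZero N)
    (hmz : m • z = 0) (hz : ModularCurve.reductionModL A N z = 0) :
    z = 0 :=
  Fermat.Agent.S18W.s18_of_keyLemmaAt N (Fermat.Agent.GaussInt.keyLemmaAt_all N) hℓN A hA h m hm z
    hmz hz

end Fermat.Agent.S18
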