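import Fermat.Statements.S21
import Fermat.Agent.S21.Assembly
import Fermat.Agent.S21.Injective
import Fermat.Agent.S21.ReInvariant
import Fermat.Agent.S21.GroupFinal
import Fermat.Agent.S20

set_option autoImplicit false
open ModularCurve

namespace Fermat.Agent.S21

theorem result (N : ℕ) [NeZero N] :
    Function.Injective (ModularCurve.periodHomPair N)
      ∧ LinearMap.range (ModularCurve.periodHomPair N)
          = ModularCurve.Period.parabolicHoms ℂ (CongruenceSubgroup.Gamma0 N) ℂ := by
  have hC : ReInvariantConst N := fun hH hinv hcusp =>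
    const_of_re_invariant (Γ := CongruenceSubgroup.Gamma0 N) (N := N) (Gamma_le_Gamma0 N)
      hH hinv hcusp
  refine eichlerShimura_of_pieces N (periodHomPair_injective N hC)
    (finiteDimensional_parabolicHoms N) ?_
  have h1 := finrank_parabolicHoms_le N
  have h2 := Fermat.Agent.S20.result N
  have h3 : (Module.finrank ℂ (ModularCurve.Period.parabolicHoms ℂ
      (CongruenceSubgroup.Gamma0 N) ℂ) : ℚ) ≤
      ((2 * Module.finrank ℂ (CuspForm (CongruenceSubgroup.Gamma0 N) 2) : ℕ) : ℚ) := by
    push_cast
    rw [h2]
    exact h1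
  exact_mod_cast h3

end Fermat.Agent.S21
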