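-- S05: the mod-p Galois representation of the Frey curve is unramified at every prime q ≠ 2, p.
-- Joint work of helper5 (glue, reduction lemma, assembly), helper65 (nodal component analysis),
-- helper75 (kernel of reduction, fixed point), helper27 (ordered-group combinatorics).
import Fermat.Statements.S05
import Fermat.Agent.S05.H5.Assembly
import Fermat.Agent.S05.H5.FreyNodal

set_option autoImplicit false
open WeierstrassCurve WeierstrassCurve.Affine WeierstrassCurve.Affine.Point
open CuspForm ModularFormClass UpperHalfPlane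
open FreyPackage

namespace Fermat.Agent.S05

theorem result (P : FreyPackage) {q : ℕ} (hq : q.Prime) (hq2 : q ≠ 2) (hqp : q ≠ P.p) : P.GaloisRepUnramifiedAt q := by
  intro A hA σ hσ x
  apply Subtype.ext
  show Point.map σ.toAlgHom x.1 = x.1
  have hvq : A.valuation ((q : ℕ) : AlgebraicClosure ℚ) < 1 := A.mem_nonunits_iff.mp hA
  have hσ1 : ∀ a : AlgebraicClosure ℚ, A.valuation a ≤ 1 →
      A.valuation (σ.toAlgHom a - a) < 1 := by
    intro a ha
    rw [A.valuation_le_one_iff] at ha
    exact A.mem_nonunits_iff.mp (S05H5.inertiaIn_sub_mem_nonunits A σ hσ ha)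
  have hσ2 : ∀ a : AlgebraicClosure ℚ, 1 < A.valuation a →
      1 < A.valuation (σ.toAlgHom a) := by
    intro a ha
    rw [← not_le, A.valuation_le_one_iff] at ha ⊢
    intro h
    exact ha ((S05H5.inertiaIn_apply_mem_iff A σ hσ).mp h)
  have hX : P.p • x.1 = 0 := by
    have h1 : ((P.p : ℕ) : ℤ) • x.1 = 0 := (Submodule.mem_torsionBy_iff _ _).mp x.2
    rwa [natCast_zsmul] at h1
  have hp : A.valuation ((P.p : ℕ) : AlgebraicClosure ℚ) = 1 :=
    S05H5.v_prime_eq_one A.valuation hq hvq P.pp hqp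
  have h2 : A.valuation (2 : AlgebraicClosure ℚ) = 1 :=
    S05H5.v_two_eq_one A.valuation hq hvq hq2
  obtain ⟨ha₁, ha₂, ha₃, ha₄, ha₆⟩ :=
    S05H5.frey_coeff_le_one (K := AlgebraicClosure ℚ) P A.valuation
  have hΔ : (P.freyCurve⁄(AlgebraicClosure ℚ)).Δ ≠ 0 := S05H5.frey_Δ_ne_zero_K P
  have hE : S05H5.GoodOrNodal A.valuation P.freyCurve P.p :=
    S05H5.frey_goodOrNodal P A.valuation hq hq2 hvq
  exact S05H5.map_eq_self_of_goodOrNodal A.valuation P.freyCurve ha₁ ha₂ ha₃ ha₄ ha₆ hΔ
    P.hp_odd hp h2 hE σ.toAlgHom hσ1 hσ2 _ hX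

end Fermat.Agent.S05
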