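import Fermat.Statements.S07
import Fermat.Prelude.Thm_ModularForm_sturm_bound_Gamma0

set_option autoImplicit false
open WeierstrassCurve WeierstrassCurve.Affine WeierstrassCurve.Affine.Point
open CuspForm ModularFormClass UpperHalfPlane
open ModularForm

namespace Fermat.Agent.S07

open scoped MatrixGroups

/-- The index of `Γ₀(N)` in `SL(2, ℤ)` is at most `N ^ 2` (crude bound via the first column
mod `N`). -/
theorem S07_index_Gamma0_le (N : ℕ) [NeZero N] :
    (CongruenceSubgroup.Gamma0 N).index ≤ N ^ 2 := by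
  classical
  let φ : SL(2, ℤ) ⧸ CongruenceSubgroup.Gamma0 N → ZMod N × ZMod N := fun q =>
    (((q.out 0 0 : ℤ) : ZMod N), ((q.out 1 0 : ℤ) : ZMod N))
  have hφ : Function.Injective φ := by
    intro q₁ q₂ h
    have h0 : ((q₁.out 0 0 : ℤ) : ZMod N) = ((q₂.out 0 0 : ℤ) : ZMod N) := congrArg Prod.fst h
    have h1 : ((q₁.out 1 0 : ℤ) : ZMod N) = ((q₂.out 1 0 : ℤ) : ZMod N) := congrArg Prod.snd h
    rw [← q₁.out_eq', ← q₂.out_eq']
    rw [QuotientGroup.eq]
    rw [CongruenceSubgroup.Gamma0_mem]
    rw [Matrix.SpecialLinearGroup.coe_mul, Matrix.SpecialLinearGroup.coe_inv,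
      Matrix.mul_apply, Fin.sum_univ_two]
    simp only [Matrix.adjugate_fin_two, Matrix.of_apply, Matrix.cons_val', Matrix.cons_val_zero,
      Matrix.cons_val_one, Matrix.cons_val_fin_one]
    push_cast
    rw [h0, h1]
    ring
  have := Nat.card_le_card_of_injective φ hφ
  rw [Subgroup.index]
  refine this.trans ?_
  rw [Nat.card_prod, Nat.card_zmod]
  exact le_of_eq (sq N).symm

theorem S07_eq_zero_of_index_lt {N : ℕ} [NeZero N]
    (hN : (CongruenceSubgroup.Gamma0 N).index < 6)
    (f : CuspForm (CongruenceSubgroup.Gamma0 N) 2) : f = 0 := by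
  have h1 : (1 : ℝ) ∈ (CongruenceSubgroup.Gamma0 N : Subgroup (GL (Fin 2) ℝ)).strictPeriods := by
    simp [CongruenceSubgroup.strictPeriods_Gamma0]
  have hzero : (qExpansion 1 f).coeff 0 = 0 :=
    CuspFormClass.qExpansion_coeff_zero f one_pos h1
  let g : ModularForm (CongruenceSubgroup.Gamma0 N) 2 := (f : ModularForm _ _)
  have hg : g = 0 := by
    refine ModularForm.sturm_bound_Gamma0 N g ?_
    intro n hn
    have hn0 : n = 0 := by
      have : ((2 : ℤ) * ((CongruenceSubgroup.Gamma0 N).index : ℤ)).toNat / 12 = 0 := by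
        have : ((2 : ℤ) * ((CongruenceSubgroup.Gamma0 N).index : ℤ)).toNat
            = 2 * (CongruenceSubgroup.Gamma0 N).index := by
          omega
        rw [this]
        omega
      omega
    subst hn0
    exact hzero
  ext z
  have := congrArg (fun F : ModularForm (CongruenceSubgroup.Gamma0 N) 2 => F z) hg
  simpa [g] using this

theorem result (f : CuspForm (CongruenceSubgroup.Gamma0 2) 2) : f = 0 := by
  refine S07_eq_zero_of_index_lt ?_ f
  have := S07_index_Gamma0_le 2
  omega

end Fermat.Agent.S07
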