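import Fermat.Statements.S08

set_option autoImplicit false
open WeierstrassCurve WeierstrassCurve.Affine WeierstrassCurve.Affine.Point
open CuspForm ModularFormClass UpperHalfPlane
open ModularForm

namespace Fermat.Agent.S08

/-- The image of `Γ₀(1)` in `GL(2, ℝ)` is the whole image of `SL(2, ℤ)`. -/
theorem S08_Gamma0_one_map_eq :
    Subgroup.map (Matrix.SpecialLinearGroup.mapGL ℝ) (CongruenceSubgroup.Gamma0 1)
      = (Matrix.SpecialLinearGroup.mapGL ℝ : Matrix.SpecialLinearGroup (Fin 2) ℤ →* GL (Fin 2) ℝ).range := by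
  have h : CongruenceSubgroup.Gamma0 1 = ⊤ := by
    ext A
    simp only [CongruenceSubgroup.Gamma0_mem, Subgroup.mem_top, iff_true]
    exact Subsingleton.elim _ _
  rw [h, MonoidHom.range_eq_map]

/-- Cusp forms of weight `k < 12` for any subgroup equal to the image of `SL(2, ℤ)` vanish. -/
theorem S08_cuspForm_eq_zero_of_eq_range {Γ : Subgroup (GL (Fin 2) ℝ)}
    (hΓ : Γ = (Matrix.SpecialLinearGroup.mapGL ℝ :
      Matrix.SpecialLinearGroup (Fin 2) ℤ →* GL (Fin 2) ℝ).range)
    {k : ℤ} (hk : k < 12) (f : CuspForm Γ k) : f = 0 := by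
  subst hΓ
  exact rank_zero_iff_forall_zero.mp (CuspForm.rank_eq_zero_of_weight_lt_twelve hk) f

theorem result (f : CuspForm (CongruenceSubgroup.Gamma0 1) 2) : f = 0 := by
  exact S08_cuspForm_eq_zero_of_eq_range S08_Gamma0_one_map_eq (by norm_num) f

end Fermat.Agent.S08
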