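import Fermat.Statements.S15
import Fermat.Agent.MUL.E.S15.FinalTop
import Fermat.Agent.MUL.E.S15.HeckeRed
import Fermat.Agent.MUL.E.Desc.Kp.ModClose


set_option autoImplicit false
open WeierstrassCurve WeierstrassCurve.Affine
open WeierstrassCurve

namespace Fermat.Agent.S15

theorem result
    {p : ℕ} (hp : p.Prime) (hp' : p ∉ ({2, 3, 5, 7, 13} : Finset ℕ))
    (W : WeierstrassCurve ℤ) (hΔ : W.Δ ≠ 0)
    (Q : ((W.map (Int.castRingHom ℚ))⁄(AlgebraicClosure ℚ)).Point)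
    (hQfix : ∀ σ : AlgebraicClosure ℚ ≃ₐ[ℚ] AlgebraicClosure ℚ, σ • Q = Q)
    (hQord : addOrderOf Q = p)
    (h2Δ : (2 : ℤ) ∣ W.Δ) (h2c₄ : ¬ (2 : ℤ) ∣ W.c₄)
    (h2 : ∀ A : ValuationSubring (AlgebraicClosure ℚ), A.LiesOverPrime 2 → ¬ W.InZeroComponentAt A Q)
    (h3Δ : (3 : ℤ) ∣ W.Δ) (h3c₄ : ¬ (3 : ℤ) ∣ W.c₄)
    (h3 : ∀ A : ValuationSubring (AlgebraicClosure ℚ), A.LiesOverPrime 3 → ¬ W.InZeroComponentAt A Q)
    {ℓ : ℕ} (hℓ : ℓ.Prime) (hℓp : ℓ ≠ p) (hℓΔ : (ℓ : ℤ) ∣ W.Δ) (hℓc₄ : ¬ (ℓ : ℤ) ∣ W.c₄)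
    (A : ValuationSubring (AlgebraicClosure ℚ)) (hA : A.LiesOverPrime ℓ) :
    ¬ W.InZeroComponentAt A Q := by
  haveI : NeZero p := ⟨hp.ne_zero⟩
  have h5 : 5 ≤ p := by
    have h2' := hp.two_le
    simp only [Finset.mem_insert, Finset.mem_singleton, not_or] at hp'
    obtain ⟨hn2, hn3, -, -, -⟩ := hp'
    by_contra hlt
    have hp4 : p = 4 := by omega
    rw [hp4] at hp
    exact absurd hp (by decide)
  exact Fermat.Agent.ES15.s15At_of_two hp hp' (Fermat.Agent.ES15.heckeRedStable p hp)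
    (Fermat.Agent.EKp.kpStatement_close hp h5) W hΔ Q hQfix hQord h2Δ h2c₄ h2 h3Δ h3c₄ h3
    ℓ hℓ hℓp hℓΔ hℓc₄ A hA

end Fermat.Agent.S15
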