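import Fermat.Statements.S10
import Fermat.Agent.Lib.Kummer.CaseI
import Fermat.Agent.Lib.Kummer.FreyWiring
import Fermat.Agent.Lib.Kummer.PID7
import Fermat.Agent.Lib.Kummer.PID13
import Fermat.Agent.Lib.Kummer.KummerLemma

/-!
# S10: the mod-`p` representation of a Frey curve has no Galois-stable cofixed line, `p ∈ {5,7,13}`

There is no Frey package with `p ∈ {5, 7, 13}` at all: this is Fermat's Last Theorem for these
exponents, proved by Kummer's method (`ℤ[ζ_p]` is a principal ideal domain, Kummer's lemma holds
for `p`, first case by Sophie Germain's theorem).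
-/

set_option autoImplicit false
open WeierstrassCurve WeierstrassCurve.Affine WeierstrassCurve.Affine.Point
open CuspForm ModularFormClass UpperHalfPlane
open FreyPackage

namespace Fermat.Agent.S10

/-- There is no Frey package with `p = 5` (Fermat's Last Theorem for exponent `5`). -/
theorem no_freyPackage_five (P : FreyPackage) (hp : P.p = 5) : False := by
  have : Fact (Nat.Prime 5) := ⟨by norm_num⟩
  have : IsCyclotomicExtension {5} ℚ (CyclotomicField 5 ℚ) :=
    CyclotomicField.isCyclotomicExtension 5 ℚ
  have : IsPrincipalIdealRing (NumberField.RingOfIntegers (CyclotomicField 5 ℚ)) :=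
    IsCyclotomicExtension.Rat.five_pid (CyclotomicField 5 ℚ)
  exact Fermat.Agent.Kummer.freyPackage_false_of_kummer (p := 5) (by norm_num)
    (Fermat.Agent.Kummer.kummerLemma_five (CyclotomicField 5 ℚ))
    Fermat.Agent.Kummer.caseI_five P hp

/-- There is no Frey package with `p = 7` (Fermat's Last Theorem for exponent `7`). -/
theorem no_freyPackage_seven (P : FreyPackage) (hp : P.p = 7) : False := by
  have : Fact (Nat.Prime 7) := ⟨by norm_num⟩
  have : IsCyclotomicExtension {7} ℚ (CyclotomicField 7 ℚ) :=
    CyclotomicField.isCyclotomicExtension 7 ℚ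
  have : IsPrincipalIdealRing (NumberField.RingOfIntegers (CyclotomicField 7 ℚ)) :=
    Fermat.Agent.Kummer.pid_seven (CyclotomicField 7 ℚ)
  exact Fermat.Agent.Kummer.freyPackage_false_of_kummer (p := 7) (by norm_num)
    (Fermat.Agent.Kummer.kummerLemma_seven (CyclotomicField 7 ℚ))
    Fermat.Agent.Kummer.caseI_seven P hp

/-- There is no Frey package with `p = 13` (Fermat's Last Theorem for exponent `13`). -/
theorem no_freyPackage_thirteen (P : FreyPackage) (hp : P.p = 13) : False := by
  have : Fact (Nat.Prime 13) := ⟨by norm_num⟩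
  have : IsCyclotomicExtension {13} ℚ (CyclotomicField 13 ℚ) :=
    CyclotomicField.isCyclotomicExtension 13 ℚ
  have : IsPrincipalIdealRing (NumberField.RingOfIntegers (CyclotomicField 13 ℚ)) :=
    Fermat.Agent.Kummer.pid_thirteen (CyclotomicField 13 ℚ)
  exact Fermat.Agent.Kummer.freyPackage_false_of_kummer (p := 13) (by norm_num)
    (Fermat.Agent.Kummer.kummerLemma_thirteen (CyclotomicField 13 ℚ))
    Fermat.Agent.Kummer.caseI_thirteen P hp

theorem result (P : FreyPackage) (hp : P.p = 5 ∨ P.p = 7 ∨ P.p = 13) : ¬ HasGaloisStableCofixedLine (K := AlgebraicClosure ℚ) ℚ P.freyCurve P.p := by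
  rcases hp with hp | hp | hp
  · exact (no_freyPackage_five P hp).elim
  · exact (no_freyPackage_seven P hp).elim
  · exact (no_freyPackage_thirteen P hp).elim

end Fermat.Agent.S10
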