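import Fermat.Statements.S11
import Fermat.Agent.Lib.Kummer.CaseI
import Fermat.Agent.Lib.Kummer.Wiring
import Fermat.Agent.Lib.Kummer.PID11
import Fermat.Agent.Lib.Kummer.KummerLemma

/-!
# S11: the mod-`11` representation of a Frey curve has no Galois-stable cofixed line

There is no Frey package with `p = 11` at all: this is Fermat's Last Theorem for the exponent
`11`, proved by Kummer's method (`ℤ[ζ₁₁]` is a principal ideal domain, Kummer's lemma holds for
`11`, first case by Sophie Germain's theorem with the auxiliary prime `23`).
-/

set_option autoImplicit false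
open WeierstrassCurve WeierstrassCurve.Affine WeierstrassCurve.Affine.Point
open CuspForm ModularFormClass UpperHalfPlane
open FreyPackage

namespace Fermat.Agent.S11

/-- There is no Frey package with `p = 11` (Fermat's Last Theorem for exponent `11`). -/
theorem no_freyPackage_eleven (P : FreyPackage) (hp : P.p = 11) : False := by
  have : Fact (Nat.Prime 11) := ⟨by norm_num⟩
  have : IsCyclotomicExtension {11} ℚ (CyclotomicField 11 ℚ) :=
    CyclotomicField.isCyclotomicExtension 11 ℚ
  have : IsPrincipalIdealRing (NumberField.RingOfIntegers (CyclotomicField 11 ℚ)) :=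
    Fermat.Agent.Kummer.pid_eleven (CyclotomicField 11 ℚ)
  have hab : IsCoprime P.a P.b := by
    rw [← gcd_isUnit_iff, P.hgcdab]
    exact isUnit_one
  have h := P.hFLT
  rw [hp] at h
  exact Fermat.Agent.Kummer.flt_of_caseI_of_kummer (p := 11) (by norm_num)
    (Fermat.Agent.Kummer.kummerLemma_eleven (CyclotomicField 11 ℚ))
    Fermat.Agent.Kummer.caseI_eleven
    P.a P.b P.c P.ha0 P.hb0 P.hc0 hab h

theorem result (P : FreyPackage) (hp : P.p = 11) : ¬ HasGaloisStableCofixedLine (K := AlgebraicClosure ℚ) ℚ P.freyCurve P.p := by
  exact (no_freyPackage_eleven P hp).elim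

end Fermat.Agent.S11
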