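-- S13: a reducible mod-p representation of the Frey curve has a Galois-stable cofixed line.
-- Elementary route (blueprints helper73 / helper25 / helper31), joint work:
--   (T) #E[p] = p^2 (helper25), (I') division polynomials (helper30, helper73, helper70),
--   S05 (helper5, helper65, helper75, helper27), (U2) inertia at 2 (helper13, helper65),
--   (R) no rational p-torsion (helper1), (Np) local dichotomy at p (helper15, helper2, helper64,
--   helper47), (M) Minkowski bridge (helper11, helper41), (F) final assembly (helper15).
import Fermat.Statements.S13
import Fermat.Agent.S13.WireR
import Fermat.Agent.S13.R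

set_option autoImplicit false
open WeierstrassCurve WeierstrassCurve.Affine WeierstrassCurve.Affine.Point
open CuspForm ModularFormClass UpperHalfPlane
open FreyPackage

namespace Fermat.Agent.S13

theorem result (P : FreyPackage) (hred : ¬ GaloisRepIsIrreducible (K := AlgebraicClosure ℚ) ℚ P.freyCurve P.p) : HasGaloisStableCofixedLine (K := AlgebraicClosure ℚ) ℚ P.freyCurve P.p :=
  Fermat.Agent.S13Final.s13_of_R P
    (fun x hx => Fermat.Agent.S13R.frey_no_rational_torsion P x hx) hred

end Fermat.Agent.S13
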