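import Fermat.Statements.S19
import Fermat.Agent.Lib.FF.ModBases
import Fermat.Agent.Lib.FF.GoodEll.ModFibres
import Fermat.Agent.Lib.Frobenius.Exists

set_option autoImplicit false
open ModularCurve
open ModularCurve

namespace Fermat.Agent.S19

theorem result
    (p : ℕ) [NeZero p] (ℓ : ℕ) [Fact ℓ.Prime] (hℓp : ¬ ℓ ∣ p) (k : ℕ) :
    ∃ (H : Type) (_ : CommRing H) (_ : HopfAlgebra (GaloisRep.ratLocalizedAt ℓ) H),
      Module.Finite (GaloisRep.ratLocalizedAt ℓ) H ∧ Module.Flat (GaloisRep.ratLocalizedAt ℓ) H ∧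
      Coalgebra.IsCocomm (GaloisRep.ratLocalizedAt ℓ) H ∧
      ∃ e : WithConv (H →ₐ[GaloisRep.ratLocalizedAt ℓ] AlgebraicClosure ℚ) ≃
          ↥(Submodule.torsionBy ℤ (JZero p) ((ℓ : ℤ) ^ k)),
        (∀ f g, e (f * g) = e f + e g) ∧
        ∀ (σ : AlgebraicClosure ℚ ≃ₐ[ℚ] AlgebraicClosure ℚ)
          (f g : WithConv (H →ₐ[GaloisRep.ratLocalizedAt ℓ] AlgebraicClosure ℚ)),
          (∀ h : H, g h = σ (f h)) → ((e g : JZero p)) = σ • (e f : JZero p) := by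
  have hS : Fermat.Agent.FF.S19Statement :=
    Fermat.Agent.FF.s19_of_goodFibres fun M ℓ' k' _ hℓ' hℓM h49 => by
      obtain ⟨A₀, hA⟩ := Fermat.Agent.FrobExists.exists_valuationSubring_liesOver ℓ' hℓ'
      haveI : Finite ↥(Submodule.torsionBy ℤ (JZero M) ((ℓ' : ℤ) ^ k')) := by
        have := Fermat.Agent.FF.finite_torsionBy M (ℓ' ^ k') (pow_pos hℓ'.pos k')
        simpa using this
      exact ⟨A₀, hA, Fermat.Agent.FFGoodEll.nonempty_goodFibres_modular A₀ ℓ' M hℓ' hA hℓM h49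
        (Fermat.Agent.FF.torsIncl M ((ℓ' : ℤ) ^ k'))⟩
  exact hS p ℓ hℓp k

end Fermat.Agent.S19
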