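-- S28 (row 27): Igusa integrality.  Assembly of the S28 project:
-- Theorem A (canonical unit, characteristic polynomial, Lagrange-Euler certificate),
-- descent to Q and l-integrality, reduction theory (B, rho, K1-K4), charts, tensor step, gluing.
import Fermat.Statements.S28
import Fermat.Agent.S28.ThmA
import Fermat.Agent.S28.RedOfThmA
import Fermat.Agent.S28.Final

set_option autoImplicit false
open AlgebraicGeometry CategoryTheory CategoryTheory.Limits ModularCurve ModularCurve.IgusaScheme
noncomputable section
set_option autoImplicit false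
open ModularCurve ModularCurve.IgusaScheme

namespace Fermat.Agent.S28

set_option maxHeartbeats 4000000 in
set_option synthInstance.maxHeartbeats 400000 in
theorem result
    (N : ℕ) [NeZero N] (ℓ : ℕ) [Fact ℓ.Prime] (hℓN : ¬ ℓ ∣ N)
    (K : Type) [Field K] [CharP K ℓ] [Algebra ↥(GaloisRep.ratLocalizedAt ℓ) K] :
    IsIntegral ↑(pullback (igusaTo N ℓ)
      (Spec.map (CommRingCat.ofHom (algebraMap ↥(GaloisRep.ratLocalizedAt ℓ) K)))) := by
  exact s28_of_redStatement N ℓ (redStatement_of_thmA N ℓ hℓN (thmA N)) K

end Fermat.Agent.S28
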