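-- Statement S37 (row 36): Eichler-Shimura congruence relation in the packaged form
-- `SpecializationExists`.  Proof: the KEY LEMMA (kernel of reduction has no prime-to-ℓ torsion)
-- at every level (`Fermat.Agent.GaussInt.keyLemmaAt_all`) fed to the quotient construction
-- `Fermat.Agent.S37.specializationExists_of_keyLemmaAt` (J' = J / kernel of reduction, Frobenius
-- and Hecke operators descend, `F² - T_ℓ F + ℓ = 0` by the congruence relation on divisors).
import Fermat.Statements.S37
import Fermat.Agent.S37.Final
import Fermat.Agent.Lib.GaussInt.KeyAux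

set_option autoImplicit false
open ModularCurve

namespace Fermat.Agent.S37

theorem result (N p : ℕ) [NeZero N] (hcomm : ModularCurve.HeckeOperatorsCommuteBar N) : letI := ModularCurve.heckeModuleBar N; ∀ (_ : SMulCommClass (AlgebraicClosure ℚ ≃ₐ[ℚ] AlgebraicClosure ℚ) ModularCurve.HeckeAlg (ModularCurve.JZero N)), ModularCurve.SpecializationExists (K := ℚ) (L := AlgebraicClosure ℚ) N p (ModularCurve.JZero N) :=
  Fermat.Agent.S37.specializationExists_of_keyLemmaAt N p hcomm
    (Fermat.Agent.GaussInt.keyLemmaAt_all N)

end Fermat.Agent.S37
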