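import Fermat.Statements.S41
import Fermat.Agent.L.Final
import Fermat.Agent.L.Ihara.Main
import Fermat.Agent.L.IharaD.ClaimEB

/-!
# S41: level raising (Ribet, Diamond-Taylor)

Cluster L (architect helper41).  `L/Final.lean` (`s41_of_ihara`) reduces the statement to Ihara's
lemma for `Γ₀(N)`, `q'`, modulo `p` (`L.IharaStatement N q' p`); the other inputs are
* DEG  (degeneracy maps, `LDeg.degStatement`),
* PD   (Poincare duality on parabolic cohomology, `LPD.pdStatement`),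
* NONEIS (the eigensystem of an irreducible `E[p]` is not Eisenstein, `L.nonEisStatement`),
* NEW  (`q'`-old classes, `LNewC.newStatement`).
Ihara's lemma is `LIh.iharaStatement_of_claimE`: amalgam `SL₂(ℤ[1/q])` (A1), congruence
subgroup property modulo `p` for `SL₂(ℤ[1/q])` (Hecke trick + centrality + Claim E).
-/

set_option autoImplicit false
open WeierstrassCurve WeierstrassCurve.Affine WeierstrassCurve.Affine.Point
open scoped CongruenceSubgroup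
open WeierstrassCurve

namespace Fermat.Agent.S41

theorem result
    (E : WeierstrassCurve ℚ) [E.IsElliptic] {W : WeierstrassCurve ℤ} (hW : W.IsIntegralModelOf E)
    {p N q' : ℕ} (hp : p.Prime) (hp2 : p ≠ 2) (hN : 0 < N) (hq' : q'.Prime) (hq'N : ¬ q' ∣ N) (hq'p : q' ≠ p)
    (hirr : GaloisRepIsIrreducible (K := AlgebraicClosure ℚ) ℚ E p)
    (f : CuspForm (CongruenceSubgroup.Gamma0 N) 2) (𝔪 : Ideal (integralClosure ℤ ℂ))
    (hf : f.IsNormalizedEigenform) (hmax : 𝔪.IsMaximal) (hpm : (p : integralClosure ℤ ℂ) ∈ 𝔪)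
    (hcong : ∀ ℓ : ℕ, ℓ.Prime → W.IsGoodPrimeFor ℓ → ¬ ℓ ∣ N → ℓ ≠ p →
      ∃ a : integralClosure ℤ ℂ, (a : ℂ) = ModularFormClass.qCoeff f ℓ ∧
        a - ((W.apOfModel ℓ : ℤ) : integralClosure ℤ ℂ) ∈ 𝔪)
    (hLR : ∃ a : integralClosure ℤ ℂ, (a : ℂ) = ModularFormClass.qCoeff f q' ∧
      a ^ 2 - ((q' : integralClosure ℤ ℂ) + 1) ^ 2 ∈ 𝔪) :
    ∃ (g : CuspForm (CongruenceSubgroup.Gamma0 (N * q')) 2) (𝔪' : Ideal (integralClosure ℤ ℂ)),
      g.IsNormalizedEigenform ∧ 𝔪'.IsMaximal ∧ (p : integralClosure ℤ ℂ) ∈ 𝔪' ∧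
      (∀ ℓ : ℕ, ℓ.Prime → W.IsGoodPrimeFor ℓ → ¬ ℓ ∣ N * q' → ℓ ≠ p →
        ∃ a : integralClosure ℤ ℂ, (a : ℂ) = ModularFormClass.qCoeff g ℓ ∧
          a - ((W.apOfModel ℓ : ℤ) : integralClosure ℤ ℂ) ∈ 𝔪') ∧
      g.IsNewAt q' := by
  have : NeZero q' := ⟨hq'.ne_zero⟩
  exact Fermat.Agent.L.s41_of_ihara E hW hp hp2 hN hq' hq'N hq'p
    (Fermat.Agent.LIh.iharaStatement_of_claimE N q' p
      (fun M' ℓ => Fermat.Agent.LIhD.claimE q' p M' ℓ))
    hirr f 𝔪 hf hmax hpm hcong hLR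

end Fermat.Agent.S41
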