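import Fermat.Statements.S42
import Fermat.Agent.F3.FinalWire
import Fermat.Agent.F3.I2.Final
import Fermat.Agent.Lib.GaussInt.KeyAux

set_option autoImplicit false
open FreyPackage

namespace Fermat.Agent.S42

theorem result (P : FreyPackage) :
    ∀ M : ℕ, 0 < M → P.EigenformResidualAttachmentAt M :=
  Fermat.Agent.F3W.s42_final (fun N _ => Fermat.Agent.GaussInt.keyLemmaAt_all N)
    (fun N _ => Fermat.Agent.F3I2.kappaAll N) P

end Fermat.Agent.S42

-- lead, capture marker 1: comment only (a cold rebuild of this closure is the warm start for S33, S15, S44, S12, S09, S36).
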