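import Fermat.Statements.S44
import Fermat.Agent.MUL.R38.Assembly
import Fermat.Agent.MUL.R38.G.SpJG1
import Fermat.Agent.MUL.R38.G.SpJG3
import Fermat.Agent.MUL.R38.T.SpJT
import Fermat.Agent.MUL.R38.S.Final
import Fermat.Agent.MUL.R38.D.SpJD
import Fermat.Agent.MUL.R38.W.Sym
import Fermat.Agent.MUL.R38.P.Final
import Fermat.Agent.MUL.R38.E.SpJE
import Fermat.Agent.MUL.R38.Ret.BridgeNJ
import Fermat.Agent.MUL.R38.Ret.BridgeFinal
import Fermat.Agent.MUL.R38.Ret.Junction


/-!
# S44 (row 38): level lowering at `p` for the Frey curve (Mazur-Ribet, "peu ramifie" case)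

`result` is the spine `Fermat.Agent.R38.spine_s44` (R38/Assembly.lean) applied to the eleven
junction theorems of the blocks G (global), T (Frey curve at `p`), S (split of the torsion),
D ((INT)), W (`w`-symmetry), P ((PHI)), E (`Ψ ≠ 0`), R6 (bridge) and R ((RET)).
-/

set_option autoImplicit false
open WeierstrassCurve WeierstrassCurve.Affine WeierstrassCurve.Affine.Point
open CuspForm ModularFormClass UpperHalfPlane
open FreyPackage

namespace Fermat.Agent.S44

theorem result (P : FreyPackage) {N : ℕ} (hcond : P.IsConductorLevel N) (hpN : P.p ∣ N) (hirr : GaloisRepIsIrreducible (K := AlgebraicClosure ℚ) ℚ P.freyCurve P.p) (hmod : P.ModularRepOfLevel N) : ∃ M : ℕ, M ∣ N ∧ ¬ P.p ∣ M ∧ P.ModularRepOfLevel M :=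
  Fermat.Agent.R38.spine_s44 Fermat.Agent.R38.spJG1 Fermat.Agent.R38.spJG3 Fermat.Agent.R38T.spJT
    Fermat.Agent.R38.spJS Fermat.Agent.R38.spJD Fermat.Agent.R38.spJW Fermat.Agent.R38.spJP
    Fermat.Agent.R38E.spJE Fermat.Agent.R38Ret.spJR6a_holds Fermat.Agent.R38Ret.spJR6b
    Fermat.Agent.R38Ret.spJR P hcond hpN hirr hmod

end Fermat.Agent.S44
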