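import Fermat.Statements.S49
import Fermat.Agent.S49.H91StepA
import Fermat.Agent.S49.H91StepC

set_option autoImplicit false
open CuspForm EisensteinWeightOne CongruenceSubgroup ModularFormClass
open FLT FLT.AbstractIntegralStructure

namespace Fermat.Agent.S49

open Fermat.Agent.S49h91 Fermat.Agent.S49.Forms in
theorem result
    {N : ℕ} [NeZero N] (h : CuspForm.HasIntegralBasis N) {a : ℕ → ℤ}
    (heig : FormalHecke.IsEigensystem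
      (fun ℓ => if ℓ ∣ N then 0 else ((chiNegThree ℓ : ℤ) : ℤ)) a)
    (hreal : CuspForm.IsLatticeRealized N a) :
    ∃ (f : CuspForm (Gamma0 N) 2) (_ : f.IsNormalizedEigenform)
      (𝔪' : Ideal (integralClosure ℤ ℂ)), 𝔪'.IsMaximal ∧
      ((3 : ℕ) : integralClosure ℤ ℂ) ∈ 𝔪' ∧
      ∀ (ℓ : ℕ) (_ : ℓ.Prime) (_ : ¬ ℓ ∣ N),
        ∃ c : integralClosure ℤ ℂ, (c : ℂ) = ModularFormClass.qCoeff f ℓ ∧
          c - (a ℓ : integralClosure ℤ ℂ) ∈ 𝔪' := by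
  classical
  have : FiniteDimensional ℂ (CuspForm (Gamma0 N) 2) := finiteDimensional_of_hasIntegralBasis h
  obtain ⟨f₀, hf₀, hf₀', hcong⟩ := stepA heig hreal
  obtain ⟨v, θ, 𝔪', hv, hmax, h3, hall⟩ :=
    lifting_lemma_indexed (heckeFam N) heckeFam_commute (isIntegral_heckeFam h)
      (fun ℓ : Nat.Primes => a ℓ) (CuspForm.intLattice N 2).toAddSubgroup
      (fun ℓ f hf => heckeFam_mem_intLattice ℓ f hf) f₀ hf₀ hf₀' hcong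
  let θ' : ℕ → ℂ := fun ℓ => if hℓ : ℓ.Prime then ((θ ⟨ℓ, hℓ⟩ : integralClosure ℤ ℂ) : ℂ) else 0
  have hT : ∀ (ℓ : ℕ) (hℓ : ℓ.Prime) (hℓN : ¬ ℓ ∣ N),
      CuspForm.heckeTLin 2 hℓ hℓN v = θ' ℓ • v := by
    intro ℓ hℓ hℓN
    have := (hall ⟨ℓ, hℓ⟩).1
    rw [heckeFam_of_not_dvd (ℓ := ⟨ℓ, hℓ⟩) hℓN] at this
    simp only [θ', dif_pos hℓ]
    exact this
  have hU : ∀ (ℓ : ℕ) (_ : ℓ.Prime) (hℓN : ℓ ∣ N),
      CuspForm.heckeULin 2 hℓN v = θ' ℓ • v := by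
    intro ℓ hℓ hℓN
    have := (hall ⟨ℓ, hℓ⟩).1
    rw [heckeFam_of_dvd (ℓ := ⟨ℓ, hℓ⟩) hℓN] at this
    simp only [θ', dif_pos hℓ]
    exact this
  obtain ⟨g, hg, hgθ⟩ := exists_normalizedEigenform_of_eigenvector v hv θ' hT hU
  refine ⟨g, hg, 𝔪', hmax, h3, fun ℓ hℓ _ => ⟨θ ⟨ℓ, hℓ⟩, ?_, (hall ⟨ℓ, hℓ⟩).2⟩⟩
  rw [hgθ ℓ hℓ]
  simp only [θ', dif_pos hℓ]

end Fermat.Agent.S49
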