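-- Statement S51 (row 45): for a semistable integral Weierstrass curve, at least one of the
-- mod-3 and mod-5 representations is irreducible.  Route: explicit X_0(15).
import Fermat.Statements.S51
import Fermat.Agent.S51.T3
import Fermat.Agent.S51.T5
import Fermat.Agent.S51.EB
import Fermat.Agent.S51.Selmer
import Fermat.Agent.S51.ClaimD
import Fermat.Agent.S51.CoreW

set_option autoImplicit false
open WeierstrassCurve WeierstrassCurve.Affine WeierstrassCurve.Affine.Point
open CuspForm ModularFormClass UpperHalfPlane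
open WeierstrassCurve

namespace Fermat.Agent.S51

theorem result (W : WeierstrassCurve ℤ) (hΔ : W.Δ ≠ 0) (hW : W.IsSemistableModel) : W.ModRepIsIrreducible 3 ∨ W.ModRepIsIrreducible 5 := by
  by_contra hcon
  rw [not_or] at hcon
  obtain ⟨h3, h5⟩ := hcon
  have hΔ' : (W.map (Int.castRingHom ℚ)).Δ ≠ 0 := by
    rw [WeierstrassCurve.map_Δ]
    simpa using hΔ
  obtain ⟨x₃, hx₃⟩ := T3_exists_root _ hΔ' h3
  obtain ⟨r, e, he, h51, h52⟩ := T5_exists_kernel _ hΔ' h5
  have hEC := ClaimD.EC_descent_of_B Fermat.Agent.S51Sel.exists_square_point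
  exact Core.core (EB_points_of_EC hEC) W hΔ hW x₃ r e hx₃ he h51 h52

end Fermat.Agent.S51
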