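import Fermat.Statements.S52
import Fermat.Agent.S52.Assembly
import Fermat.Agent.S52.Klein.Frob4
import Fermat.Agent.S52.Klein.LineId
import Fermat.Agent.S52.NoSection
import Fermat.Agent.S52.RSCoprimeThm

/-!
# S52: the 3–5 switch

`W' = W_t` in the Rubin–Silverberg family of curves 5-congruent to `W` (Klein's icosahedral
forms); the mod-5 congruence of traces is proved directly in characteristic `ℓ` from the
Cayley–Hamilton identity for Frobenius on points (`F1.frobCharEq`), the mod-3 irreducibility by
a thin-set argument on the 3-division quartic.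
-/

set_option autoImplicit false
open WeierstrassCurve WeierstrassCurve.Affine WeierstrassCurve.Affine.Point
open CuspForm ModularFormClass UpperHalfPlane
open WeierstrassCurve

namespace Fermat.Agent.S52

theorem result (W : WeierstrassCurve ℤ) (hΔ : W.Δ ≠ 0) (hW : W.IsSemistableModel) (h5 : W.ModRepIsIrreducible 5) : ∃ W' : WeierstrassCurve ℤ, W'.Δ ≠ 0 ∧ W'.IsSemistableModel ∧ W'.ModRepIsIrreducible 3 ∧ ∀ ℓ : ℕ, ℓ.Prime → W.IsGoodPrimeFor ℓ → W'.IsGoodPrimeFor ℓ → ℓ ≠ 5 → (5 : ℤ) ∣ (W'.apOfModel ℓ - W.apOfModel ℓ) := by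
  exact s52_of_inputs (kleinCongr_of_lineId kleinLineId)
    (noSection_of_line (fun u v t => klH_line u v t) (fun u v t => kl_lineT u v t))
    rsCoprime W hΔ hW

end Fermat.Agent.S52
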