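import Fermat.Statements.S54
import Fermat.Agent.Lib.Frobenius.Exists

set_option autoImplicit false
open GaloisRep GaloisRep.DeformationRingData

namespace Fermat.Agent.S54

open Polynomial

theorem trace_eq_of_charpoly {T : Type} [CommRing T] [Nontrivial T] {V : Type} [AddCommGroup V]
    [Module T V] [Module.Free T V] [Module.Finite T V] (hV : Module.finrank T V = 2)
    (f : Module.End T V) (a b : T) (h : LinearMap.charpoly f = X ^ 2 - C a * X + C b) :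
    LinearMap.trace T V f = a := by
  classical
  let bas := Module.Free.chooseBasis T V
  have hcard : Fintype.card (Module.Free.ChooseBasisIndex T V) = 2 := by
    rw [← Module.finrank_eq_card_chooseBasisIndex, hV]
  have : Nonempty (Module.Free.ChooseBasisIndex T V) := by
    rw [← Fintype.card_pos_iff, hcard]; norm_num
  rw [LinearMap.trace_eq_matrix_trace T bas, Matrix.trace_eq_neg_charpoly_coeff, hcard,
    LinearMap.charpoly_toMatrix f bas, h]
  simp [coeff_C]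

theorem result {𝒪 : Type} [CommRing 𝒪] [IsDomain 𝒪] [IsDiscreteValuationRing 𝒪] [IsAdicComplete (IsLocalRing.maximalIdeal 𝒪) 𝒪] {ρbar : ResidualGaloisRep (IsLocalRing.ResidueField 𝒪)} {𝒟 : ∀ ⦃A : Type⦄ [CommRing A] [IsLocalRing A] [Algebra 𝒪 A], GaloisRepAdic A → Prop} (D : GaloisRep.DeformationRingData 𝒪 ρbar 𝒟) {N : ℕ} [NeZero N] {S : Set ℕ} {θ : CuspForm.heckeAlgebra N 2 S →+* IsLocalRing.ResidueField 𝒪} {T : Type} [CommRing T] [IsLocalRing T] [IsNoetherianRing T] [IsAdicComplete (IsLocalRing.maximalIdeal T) T] [Algebra 𝒪 T] [IsLocalHom (algebraMap 𝒪 T)] [Module.Finite 𝒪 T] [Module.Free 𝒪 T] (H : CuspForm.HeckeGaloisRepDatum N S 𝒪 θ T) (hS : ∀ q : ℕ, q.Prime → q ∣ N → q ∈ S) (h𝒟 : 𝒟 H.ρ) (hres : H.ρ.residual.IsEquiv (ρbar.baseChangeAlong (IsLocalRing.ResidueField.map (algebraMap 𝒪 T)))) : ∃ φ : D.R →ₐ[𝒪] T, Function.Surjective φ ∧ ∃ hφ : IsLocalHom (φ : D.R →+* T), (D.ρ.baseChangeAlong (φ : D.R →+*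 T) hφ).IsEquiv H.ρ := by
  obtain ⟨φ, ⟨hφ, ⟨e⟩⟩, -⟩ := D.universal T H.residue_surjective H.ρ h𝒟 hres
  refine ⟨φ, ?_, hφ, ⟨e⟩⟩
  -- trace compatibility
  have htr : ∀ σ, LinearMap.trace T H.ρ.V (H.ρ.ρ σ) = φ (LinearMap.trace D.R D.ρ.V (D.ρ.ρ σ)) := by
    intro σ
    let _ : Algebra D.R T := (φ : D.R →+* T).toAlgebra
    have h1 : H.ρ.ρ σ = e.toLinearEquiv.conj ((D.ρ.baseChangeAlong (φ : D.R →+* T) hφ).ρ σ) := by
      ext x
      simp only [LinearEquiv.conj_apply, LinearMap.comp_apply, LinearEquiv.coe_coe]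
      rw [e.map_apply, LinearEquiv.apply_symm_apply]
    rw [h1, LinearMap.trace_conj']
    exact LinearMap.trace_baseChange (D.ρ.ρ σ) T
  -- every Hecke generator is hit
  have hT : ∀ (ℓ : ℕ) (hℓ : ℓ.Prime) (hℓN : ¬ ℓ ∣ N) (hℓS : ℓ ∉ S),
      H.π (CuspForm.heckeAlgebra.T hℓ hℓN hℓS) ∈ (φ.range : Subalgebra 𝒪 T) := by
    intro ℓ hℓ hℓN hℓS
    obtain ⟨A, σ, hA, hσ⟩ := Fermat.Agent.FrobExists.exists_frobenius ℓ hℓ
    have h1 := H.charpoly_frob ℓ hℓ hℓN hℓS A hA σ hσ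
    have h2 := trace_eq_of_charpoly H.ρ.finrank_eq _ _ _ h1
    rw [htr σ] at h2
    exact ⟨_, h2⟩
  have hgen : ∀ t : CuspForm.heckeAlgebra N 2 S, H.π t ∈ (φ.range : Subalgebra 𝒪 T) := by
    rintro ⟨x, hx⟩
    induction hx using Algebra.adjoin_induction with
    | mem x hx =>
      rcases hx with ⟨ℓ, hℓ, hℓN, hℓS, rfl⟩ | ⟨q, hqN, hq, hqS, rfl⟩
      · exact hT ℓ hℓ hℓN hℓS
      · exact absurd (hS q hq hqN) hqS
    | algebraMap r =>
      have : (⟨algebraMap ℤ _ r, Subalgebra.algebraMap_mem _ r⟩ : CuspForm.heckeAlgebra N 2 S)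
          = algebraMap ℤ _ r := rfl
      rw [this, eq_intCast, map_intCast]
      exact intCast_mem _ r
    | add x y hx hy ihx ihy =>
      have : (⟨x + y, Subalgebra.add_mem _ hx hy⟩ : CuspForm.heckeAlgebra N 2 S)
          = ⟨x, hx⟩ + ⟨y, hy⟩ := rfl
      rw [this, map_add]
      exact add_mem ihx ihy
    | mul x y hx hy ihx ihy =>
      have : (⟨x * y, Subalgebra.mul_mem _ hx hy⟩ : CuspForm.heckeAlgebra N 2 S)
          = ⟨x, hx⟩ * ⟨y, hy⟩ := rfl
      rw [this, map_mul]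
      exact mul_mem ihx ihy
  have htop : (φ.range : Subalgebra 𝒪 T) = ⊤ := by
    rw [eq_top_iff, ← H.adjoin_range_π]
    apply Algebra.adjoin_le
    rintro _ ⟨t, rfl⟩
    exact hgen t
  intro x
  have : x ∈ (φ.range : Subalgebra 𝒪 T) := htop ▸ Algebra.mem_top
  exact this

end Fermat.Agent.S54
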