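import Fermat.Statements.S57
import Fermat.Agent.S57.ABLite
import Fermat.Agent.S57.PowerSeriesRegular
import Fermat.Agent.S57.Semilinear
import Fermat.Agent.S57.Assembly
import Fermat.Agent.S57.FiniteLength

set_option autoImplicit false
open Algebra Algebra.PatchingLevel

namespace Fermat.Agent.S57

open RingTheory.Sequence IsLocalRing MvPowerSeries

theorem result
    {𝒪 : Type} [CommRing 𝒪] [IsDomain 𝒪] [IsDiscreteValuationRing 𝒪]
    {r : ℕ} {R : Type} [CommRing R] [Algebra 𝒪 R]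
    {M : Type} [AddCommGroup M] [Module R M] [Nontrivial M]
    (L : Algebra.PatchingLevel 𝒪 r R M ⊥) :
    Module.Free R M ∧ Module.annihilator R M = ⊥ ∧
      RingHom.ker L.ψ = Ideal.span (Set.range fun i : Fin r => L.φ (MvPowerSeries.X i)) := by
  apply S57_of_free L
  obtain ⟨ϖ, hϖ⟩ := IsDiscreteValuationRing.exists_irreducible 𝒪
  have hspan : ∀ x : L.N, ∃ c : Fin L.d → MvPowerSeries (Fin r) 𝒪,
      x = ∑ i, (L.φ : MvPowerSeries (Fin r) 𝒪 →+* MvPowerSeries (Fin r) 𝒪) (c i) • L.b i :=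
    L.b_span
  have hrel : ∀ c : Fin L.d → MvPowerSeries (Fin r) 𝒪,
      ∑ i, (L.φ : MvPowerSeries (Fin r) 𝒪 →+* MvPowerSeries (Fin r) 𝒪) (c i) • L.b i = 0 ↔
        ∀ i, c i = 0 := fun c => by
    have h := L.b_rel c
    simp only [Ideal.mem_bot] at h
    exact h
  have : Module.Finite (MvPowerSeries (Fin r) 𝒪) L.N :=
    finite_of_semilinear_basis (L.φ : MvPowerSeries (Fin r) 𝒪 →+* MvPowerSeries (Fin r) 𝒪)
      L.b hspan
  have : Nontrivial L.N := by
    obtain ⟨m, m', hmm'⟩ := exists_pair_ne M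
    obtain ⟨x, rfl⟩ := L.π_surjective m
    obtain ⟨x', rfl⟩ := L.π_surjective m'
    exact ⟨⟨x, x', fun h => hmm' (by rw [h])⟩⟩
  have hreg : IsWeaklyRegular L.N ((stdSeq r ϖ).map
      (L.φ : MvPowerSeries (Fin r) 𝒪 →+* MvPowerSeries (Fin r) 𝒪)) :=
    isWeaklyRegular_map_of_semilinear_basis _ _ hspan hrel
      (isWeaklyRegular_stdSeq r ϖ hϖ.ne_zero)
  have hmem : ∀ x ∈ (stdSeq r ϖ).map
      (L.φ : MvPowerSeries (Fin r) 𝒪 →+* MvPowerSeries (Fin r) 𝒪),
      x ∈ maximalIdeal (MvPowerSeries (Fin r) 𝒪) := by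
    intro x hx
    simp only [stdSeq, List.map_append, List.map_cons, List.map_nil, List.mem_append,
      List.mem_map, List.mem_ofFn, List.mem_singleton] at hx
    rw [mem_maximalIdeal, mem_nonunits_iff]
    rcases hx with ⟨_, ⟨j, rfl⟩, rfl⟩ | rfl
    · intro hu
      -- then the ideal is everything and `M` is trivial
      have htop : Ideal.span (Set.range fun i : Fin r => L.φ (MvPowerSeries.X i)) = ⊤ :=
        Ideal.eq_top_of_isUnit_mem _ (Ideal.subset_span ⟨j, rfl⟩) hu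
      obtain ⟨m, m', hmm'⟩ := exists_pair_ne M
      obtain ⟨x, rfl⟩ := L.π_surjective m
      obtain ⟨x', rfl⟩ := L.π_surjective m'
      have h0 : ∀ y : L.N, L.π y = 0 := fun y => by
        rw [L.ker_π, htop, Submodule.top_smul]
        exact Submodule.mem_top
      exact hmm' (by rw [h0 x, h0 x'])
    · have h1 : (L.φ : MvPowerSeries (Fin r) 𝒪 →+* MvPowerSeries (Fin r) 𝒪) (C ϖ) = C ϖ := by
        have := L.φ.commutes ϖ
        rw [MvPowerSeries.algebraMap_apply, Algebra.algebraMap_self_apply] at this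
        exact this
      rw [h1, isUnit_iff_constantCoeff, constantCoeff_C]
      exact hϖ.not_isUnit
  have hfl : IsFiniteLength (MvPowerSeries (Fin r) 𝒪)
      (L.N ⧸ Ideal.ofList ((stdSeq r ϖ).map
        (L.φ : MvPowerSeries (Fin r) 𝒪 →+* MvPowerSeries (Fin r) 𝒪)) •
          (⊤ : Submodule (MvPowerSeries (Fin r) 𝒪) L.N)) := by
    rw [isFiniteLength_iff_isNoetherian_isArtinian]
    refine ⟨inferInstance, isArtinian_quot_of_semilinear _ L.b hspan _ ?_⟩
    rw [← ofList_stdSeq_eq_maximalIdeal r ϖ hϖ, Ideal.map_ofList]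
  exact free_of_regular_sequences (stdSeq r ϖ) (isRegular_stdSeq r ϖ hϖ)
    (ofList_stdSeq_eq_maximalIdeal r ϖ hϖ) _ hreg hmem (by simp) hfl

end Fermat.Agent.S57
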